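import Mathlib
import Fermat.Agent.MW17.Setup
import Fermat.Agent.MW17.Move
import Fermat.Agent.MW17.PairAbs
import Fermat.Agent.V.Sem.PtPlace

/-!
# Program MW (S17), heights half (A), §7: divisors of points and their classes

Owner: helper29.  Namespace `Fermat.Agent.MW17`, prefix `mw17pr`.

On a one-point presentation `P : V27Presented K F T` (`K` algebraically closed, `V27pB T` Dedekind):

* `mw17prPl P : Option (Mw17Pt T) → Place K F` (`none ↦ P0`), a bijection (`mw17prEquiv`);
* `mw17prDiv P : (Option (Mw17Pt T) →₀ ℤ) ≃+ Divisor K F`;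
* `mw17paDeg`, `mw17paSize` : degree and size of a formal sum of points;
* `mw17prCl P : (Option (Mw17Pt T) →₀ ℤ) →+ Pic0 K F`, `A ↦ [A - (deg A) P0]`;
* `mw17pr_move` : **(MOVE)** every class has a representative of degree `0`, size `≤ 4g`, supported
  on finite points off any prescribed finite set.
-/

set_option autoImplicit false
set_option linter.unusedSectionVars false
set_option linter.style.haveILetI false

noncomputable section

namespace Fermat.Agent.MW17

open AlgebraicCurve Fermat.Agent.V Fermat.Agent.V.RR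

variable {K F : Type*} [Field K] [Field F] [Algebra K F] {δ : V27pShape} {T : V27pTable K δ}
  [IsDedekindDomain (V27pB T)] (P : V27Presented K F T)

/-- the place of an extended point (`none` is the point at infinity `P0`). -/
def mw17prPl : Option (Mw17Pt T) → Place K F
  | none => P.P0
  | some q => v27spPlace P q

@[simp] theorem mw17prPl_none : mw17prPl P none = P.P0 := rfl

@[simp] theorem mw17prPl_some (q : Mw17Pt T) : mw17prPl P (some q) = v27spPlace P q := rfl

theorem mw17prPl_injective : Function.Injective (mw17prPl P) := by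
  rintro (_ | q) (_ | q') h
  · rfl
  · exact absurd h.symm (v27spPlace_ne P q')
  · exact absurd h (v27spPlace_ne P q)
  · exact congrArg some (v27spPlace_injective P h)

theorem mw17prPl_surjective [IsAlgClosed K] : Function.Surjective (mw17prPl P) := by
  intro v
  by_cases hv : v = P.P0
  · exact ⟨none, hv.symm⟩
  · obtain ⟨q, hq⟩ := v27sp_exists_eq P v hv
    exact ⟨some q, hq.symm⟩

theorem mw17prPl_deg (o : Option (Mw17Pt T)) : (mw17prPl P o).deg = 1 := by
  rcases o with _ | q
  · exact P.hdeg
  · exact v27sp_deg P q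

/-- extended points ≃ places. -/
def mw17prEquiv [IsAlgClosed K] : Option (Mw17Pt T) ≃ Place K F :=
  Equiv.ofBijective (mw17prPl P) ⟨mw17prPl_injective P, mw17prPl_surjective P⟩

@[simp] theorem mw17prEquiv_apply [IsAlgClosed K] (o : Option (Mw17Pt T)) :
    mw17prEquiv P o = mw17prPl P o := rfl

include P in
theorem mw17pr_deg_eq_one [IsAlgClosed K] (v : Place K F) : v.deg = 1 := by
  obtain ⟨o, rfl⟩ := mw17prPl_surjective P v
  exact mw17prPl_deg P o

/-- formal sums of extended points ≃ divisors. -/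
def mw17prDiv [IsAlgClosed K] : (Option (Mw17Pt T) →₀ ℤ) ≃+ Divisor K F :=
  Finsupp.domCongr (mw17prEquiv P)

theorem mw17prDiv_apply [IsAlgClosed K] (A : Option (Mw17Pt T) →₀ ℤ) (o : Option (Mw17Pt T)) :
    mw17prDiv P A (mw17prPl P o) = A o := by
  unfold mw17prDiv
  rw [Finsupp.domCongr_apply, Finsupp.equivMapDomain_apply]
  congr 1
  exact (mw17prEquiv P).symm_apply_apply o

theorem mw17prDiv_single [IsAlgClosed K] (o : Option (Mw17Pt T)) (n : ℤ) :
    mw17prDiv P (Finsupp.single o n) = Finsupp.single (mw17prPl P o) n := by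
  unfold mw17prDiv
  rw [Finsupp.domCongr_apply, Finsupp.equivMapDomain_single]
  rfl

@[simp] theorem mw17paDeg_single' {α : Type*} (a : α) (n : ℤ) :
    mw17paDeg (Finsupp.single a n) = n := by
  simp [mw17paDeg]

theorem mw17paDeg_mapDomain' {α β : Type*} (f : α → β) (Z : α →₀ ℤ) :
    mw17paDeg (Finsupp.mapDomain f Z) = mw17paDeg Z := by
  induction Z using Finsupp.induction_linear with
  | zero => simp
  | add Z W hZ hW => rw [Finsupp.mapDomain_add, map_add, map_add, hZ, hW]
  | single a n => rw [Finsupp.mapDomain_single, mw17paDeg_single', mw17paDeg_single']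

theorem mw17pr_degree_div [IsAlgClosed K] (A : Option (Mw17Pt T) →₀ ℤ) :
    Divisor.degree (mw17prDiv P A) = mw17paDeg A := by
  induction A using Finsupp.induction_linear with
  | zero => simp
  | add Z W hZ hW => rw [map_add, map_add, map_add, hZ, hW]
  | single a n =>
    rw [mw17prDiv_single, Divisor.degree_single, mw17prPl_deg, mw17paDeg_single']
    simp

theorem mw17pr_sub_mem_degZero [IsAlgClosed K] (A : Option (Mw17Pt T) →₀ ℤ) :
    mw17prDiv P A - mw17paDeg A • (Finsupp.single P.P0 1 : Divisor K F) ∈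
      Divisor.degZero (K := K) (F := F) := by
  rw [Divisor.mem_degZero, map_sub, map_zsmul, Divisor.degree_single, P.hdeg,
    mw17pr_degree_div]
  simp

/-- the auxiliary additive map `A ↦ A - (deg A) P0` into divisors. -/
def mw17prNorm [IsAlgClosed K] : (Option (Mw17Pt T) →₀ ℤ) →+ Divisor K F where
  toFun A := mw17prDiv P A - mw17paDeg A • (Finsupp.single P.P0 1 : Divisor K F)
  map_zero' := by simp
  map_add' A B := by rw [map_add, map_add, add_smul]; abel

theorem mw17prNorm_apply [IsAlgClosed K] (A : Option (Mw17Pt T) →₀ ℤ) :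
    mw17prNorm P A = mw17prDiv P A - mw17paDeg A • (Finsupp.single P.P0 1 : Divisor K F) := rfl

/-- **the class map** `A ↦ [A - (deg A) P0] ∈ Pic0`. -/
def mw17prCl [IsAlgClosed K] : (Option (Mw17Pt T) →₀ ℤ) →+ Pic0 K F :=
  (QuotientAddGroup.mk' _).comp
    ((mw17prNorm P).codRestrict (Divisor.degZero (K := K) (F := F)) (mw17pr_sub_mem_degZero P))

theorem mw17prCl_apply [IsAlgClosed K] (A : Option (Mw17Pt T) →₀ ℤ) :
    mw17prCl P A = Pic0.mk ⟨mw17prDiv P A - mw17paDeg A • (Finsupp.single P.P0 1 : Divisor K F),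
      mw17pr_sub_mem_degZero P A⟩ := rfl

/-- the class of a degree zero formal sum is the class of its divisor. -/
theorem mw17prCl_of_deg_zero [IsAlgClosed K] (A : Option (Mw17Pt T) →₀ ℤ) (hA : mw17paDeg A = 0)
    (h : mw17prDiv P A ∈ Divisor.degZero (K := K) (F := F)) :
    mw17prCl P A = Pic0.mk ⟨mw17prDiv P A, h⟩ := by
  rw [mw17prCl_apply]
  congr 1
  apply Subtype.ext
  simp [hA]

/-- equality of classes = linear equivalence of the normalised divisors. -/
theorem mw17prCl_eq_iff [IsAlgClosed K] (A A' : Option (Mw17Pt T) →₀ ℤ) :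
    mw17prCl P A = mw17prCl P A' ↔
      Divisor.IsPrincipal (mw17prNorm P A - mw17prNorm P A') := by
  rw [mw17prCl_apply, mw17prCl_apply]
  unfold Pic0.mk
  rw [QuotientAddGroup.eq_iff_sub_mem, AddSubgroup.mem_addSubgroupOf]
  exact Iff.rfl

/-! ### size -/

theorem mw17paSize_mapDomain {α β : Type*} {f : α → β} (hf : Function.Injective f) (Z : α →₀ ℤ) :
    mw17paSize (Finsupp.mapDomain f Z) = mw17paSize Z := by
  unfold mw17paSize
  rw [Finsupp.sum_mapDomain_index_inj hf]

theorem mw17paSize_of_nonneg {α : Type*} (X : α →₀ ℤ) (h : 0 ≤ X) :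
    (mw17paSize X : ℤ) = mw17paDeg X := by
  rw [mw17paDeg_apply]
  unfold mw17paSize
  rw [Finsupp.sum, Finsupp.sum, Nat.cast_sum]
  refine Finset.sum_congr rfl fun a _ => ?_
  exact Int.natAbs_of_nonneg (by simpa using h a)

/-! ### (MOVE) -/

theorem mw17pr_mapDomain_comapDomain {α : Type*} (X : Option α →₀ ℤ) (h : X none = 0) :
    Finsupp.mapDomain some (Finsupp.comapDomain some X (Option.some_injective α).injOn) = X := by
  refine Finsupp.mapDomain_comapDomain some (Option.some_injective α) X ?_
  intro o ho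
  rcases o with _ | a
  · exact absurd h (Finsupp.mem_support_iff.mp ho)
  · exact ⟨a, rfl⟩

/-- **(MOVE)** every class of `Pic0` is the class of a degree zero formal sum of FINITE points,
of size at most `4g`, whose support avoids a prescribed finite set of points. -/
theorem mw17pr_move [IsAlgClosed K] {g : ℕ} (R : V27RR K F g) (x : Pic0 K F)
    (S : Finset (Mw17Pt T)) :
    ∃ Z : Mw17Pt T →₀ ℤ, mw17paDeg Z = 0 ∧ mw17prCl P (mw17paIota Z) = x ∧
      mw17paSize Z ≤ 4 * g ∧ Disjoint Z.support S := by
  classical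
  haveI : Infinite K := IsAlgClosed.instInfinite
  obtain ⟨A, B, hAB, hA0, hB0, hAd, hBd, hS, -, hx⟩ :=
    mw17mv_exists_rep_pic0 R P.P0 P.hdeg (2 * g) le_rfl x
      (insert P.P0 (S.image (v27spPlace P))) (fun v _ => mw17pr_deg_eq_one P v)
  set A' := (mw17prDiv P).symm A with hA'
  set B' := (mw17prDiv P).symm B with hB'
  have hdA : mw17prDiv P A' = A := (mw17prDiv P).apply_symm_apply A
  have hdB : mw17prDiv P B' = B := (mw17prDiv P).apply_symm_apply B
  have hA'o : ∀ o, A' o = A (mw17prPl P o) := fun o => by rw [← hdA, mw17prDiv_apply]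
  have hB'o : ∀ o, B' o = B (mw17prPl P o) := fun o => by rw [← hdB, mw17prDiv_apply]
  have hnone : (A' - B') none = 0 := by
    rw [Finsupp.sub_apply, hA'o, hB'o, mw17prPl_none,
      (hS P.P0 (Finset.mem_insert_self _ _)).1, (hS P.P0 (Finset.mem_insert_self _ _)).2, sub_zero]
  set Z := Finsupp.comapDomain some (A' - B') (Option.some_injective (Mw17Pt T)).injOn with hZ
  have hmap : Finsupp.mapDomain some Z = A' - B' := mw17pr_mapDomain_comapDomain _ hnone
  have hdiv : mw17prDiv P (A' - B') = A - B := by rw [map_sub, hdA, hdB]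
  have hdeg : mw17paDeg (A' - B') = 0 := by
    rw [← mw17pr_degree_div P, hdiv]
    exact Divisor.mem_degZero.mp hAB
  refine ⟨Z, ?_, ?_, ?_, ?_⟩
  · rw [← mw17paDeg_mapDomain' some Z, hmap, hdeg]
  · rw [mw17paIota_apply, hmap, mw17prCl_of_deg_zero P _ hdeg (by rw [hdiv]; exact hAB), hx]
    congr 1
    exact Subtype.ext hdiv
  · rw [← mw17paSize_mapDomain (Option.some_injective _) Z, hmap]
    refine le_trans (mw17paSize_sub_le A' B') ?_
    have h1 : (mw17paSize A' : ℤ) = 2 * g := by
      rw [mw17paSize_of_nonneg A' (fun o => by rw [Finsupp.zero_apply, hA'o]; exact hA0 _),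
        ← mw17pr_degree_div P, hdA, hAd]
      push_cast; ring
    have h2 : (mw17paSize B' : ℤ) = 2 * g := by
      rw [mw17paSize_of_nonneg B' (fun o => by rw [Finsupp.zero_apply, hB'o]; exact hB0 _),
        ← mw17pr_degree_div P, hdB, hBd]
      push_cast; ring
    omega
  · rw [Finset.disjoint_left]
    intro q hq hqS
    rw [Finsupp.mem_support_iff, hZ, Finsupp.comapDomain_apply, Finsupp.sub_apply, hA'o, hB'o,
      mw17prPl_some] at hq
    have := hS (v27spPlace P q)
      (Finset.mem_insert_of_mem (Finset.mem_image_of_mem _ hqS))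
    rw [this.1, this.2, sub_zero] at hq
    exact hq rfl

/-- (MOVE) in the literal shape of the field `Mw17paHyp.move` (MW17/PairAbs.lean). -/
theorem mw17pr_move_hyp [IsAlgClosed K] {g : ℕ} (R : V27RR K F g) :
    ∃ s₀ : ℕ, ∀ (x : Pic0 K F) (S : Finset (Mw17Pt T)), ∃ Z : Mw17Pt T →₀ ℤ,
      mw17paDeg Z = 0 ∧ mw17prCl P (mw17paIota Z) = x ∧ mw17paSize Z ≤ s₀ ∧
      Disjoint Z.support S :=
  ⟨4 * g, fun x S => mw17pr_move P R x S⟩

end Fermat.Agent.MW17
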