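import Fermat.Agent.MW17.Pair.Cl
import Fermat.Agent.MW17.PairMove

/-!
# Program MW (S17), §7: (FRAC), the algebraic front end of (PRINC) on a presented curve

Owner: helper15.  Prefix `mw17pf`.  On top of helper29's `MW17/Pair/Cl.lean` (`mw17prPl`,
`mw17prDiv`, `mw17prCl` for `Pt := Mw17Pt T`) and of `MW17/PairMove.lean` (generic divisor forms).

If `mw17prCl P A = mw17prCl P A'` (degree zero, sizes `≤ s`) and `W` is off `A` and `A'`, then
there are nonzero `b₁, b₂ ∈ V27pB T` of pole order `≤ 2 g + 2 s` with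

* `A o - A' o = ord_o (ψ b₁) - ord_o (ψ b₂)` for every extended point `o` (including `P0`);
* `r b₁ ≠ 0` and `r b₂ ≠ 0` for every point `r` of the support of `W`.
-/

set_option autoImplicit false
set_option linter.unusedSectionVars false
set_option linter.style.haveILetI false

noncomputable section

namespace Fermat.Agent.MW17

open AlgebraicCurve Fermat.Agent.V Fermat.Agent.V.RR

variable {K F : Type*} [Field K] [Field F] [Algebra K F] {δ : V27pShape} {T : V27pTable K δ}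
  [IsDedekindDomain (V27pB T)] (P : V27Presented K F T) [IsAlgClosed K]

theorem mw17pf_size_div (A : Option (Mw17Pt T) →₀ ℤ) :
    mw17paSize (mw17prDiv P A) = mw17paSize A := by
  have e : mw17prDiv P A = Finsupp.mapDomain (mw17prPl P) A := by
    unfold mw17prDiv
    rw [Finsupp.domCongr_apply, Finsupp.equivMapDomain_eq_mapDomain]
    rfl
  rw [e, mw17paSize_mapDomain (mw17prPl_injective P)]

/-- **(FRAC) on the presented curve.** -/
theorem mw17pf_frac {g : ℕ} (R : V27RR K F g) (s : ℕ)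
    {A A' : Option (Mw17Pt T) →₀ ℤ} (hA : mw17paDeg A = 0) (hA' : mw17paDeg A' = 0)
    (hcl : mw17prCl P A = mw17prCl P A')
    (hs : mw17paSize A ≤ s) (hs' : mw17paSize A' ≤ s)
    (W : Mw17Pt T →₀ ℤ) (ho : Mw17paOff A W) (ho' : Mw17paOff A' W) :
    ∃ b₁ b₂ : V27pB T, b₁ ≠ 0 ∧ b₂ ≠ 0 ∧ V27pLe b₁ (2 * g + 2 * s) ∧ V27pLe b₂ (2 * g + 2 * s) ∧
      (∀ o : Option (Mw17Pt T),
        A o - A' o = (mw17prPl P o).ord (P.ψ b₁) - (mw17prPl P o).ord (P.ψ b₂)) ∧
      ∀ r ∈ W.support, r b₁ ≠ 0 ∧ r b₂ ≠ 0 := by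
  classical
  haveI : Infinite K := IsAlgClosed.instInfinite
  have hdeg1 : ∀ v : Place K F, v.deg = 1 := mw17pr_deg_eq_one P
  have hprinc : Divisor.IsPrincipal (mw17prDiv P A - mw17prDiv P A') := by
    have h := (mw17prCl_eq_iff P A A').mp hcl
    rwa [mw17prNorm_apply, mw17prNorm_apply, hA, hA', zero_smul, sub_zero, sub_zero] at h
  obtain ⟨u₁, u₂, h1, h2, hu1, hu2, hdiv, hoff⟩ :=
    mw17pm_frac_div_off R hdeg1 P.P0 hprinc (W.support.image (v27spPlace P))
  have hsize : mw17paSize (mw17prDiv P A - mw17prDiv P A') ≤ 2 * s := by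
    have := mw17paSize_sub_le (mw17prDiv P A) (mw17prDiv P A')
    rw [mw17pf_size_div, mw17pf_size_div] at this
    omega
  have hle : ((2 * g + mw17paSize (mw17prDiv P A - mw17prDiv P A') : ℕ) : ℤ) ≤
      ((2 * g + 2 * s : ℕ) : ℤ) := by
    exact_mod_cast Nat.add_le_add_left hsize (2 * g)
  obtain ⟨b₁, hb1, rfl⟩ := P.exists_of_mem_L (mw17pm_L_mono hle hu1)
  obtain ⟨b₂, hb2, rfl⟩ := P.exists_of_mem_L (mw17pm_L_mono hle hu2)
  have hb10 : b₁ ≠ 0 := fun h => h1 (by rw [h, map_zero])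
  have hb20 : b₂ ≠ 0 := fun h => h2 (by rw [h, map_zero])
  refine ⟨b₁, b₂, hb10, hb20, hb1, hb2, fun o => ?_, fun r hr => ?_⟩
  · have := hdiv (mw17prPl P o)
    rwa [Finsupp.sub_apply, mw17prDiv_apply, mw17prDiv_apply] at this
  · have hD0 : (mw17prDiv P A - mw17prDiv P A') (v27spPlace P r) = 0 := by
      have e : v27spPlace P r = mw17prPl P (some r) := rfl
      rw [e, Finsupp.sub_apply, mw17prDiv_apply, mw17prDiv_apply,
        Finsupp.notMem_support_iff.mp (ho r hr), Finsupp.notMem_support_iff.mp (ho' r hr),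
        sub_zero]
    have := hoff (v27spPlace P r) (Finset.mem_image_of_mem _ hr) (v27spPlace_ne P r)
    rw [hD0] at this
    simp only [neg_zero, max_self] at this
    exact ⟨(v27sp_unit_iff P r b₁).mpr ⟨h1, this.1⟩, (v27sp_unit_iff P r b₂).mpr ⟨h2, this.2⟩⟩

/-- the divisor of `ψ b` as a formal sum of extended points (`0` for `b = 0`). -/
def mw17pfOrd {g : ℕ} (R : V27RR K F g) (b : V27pB T) : Option (Mw17Pt T) →₀ ℤ :=
  open Classical in
  if hb : b = 0 then 0 else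
    (mw17prDiv P).symm (Classical.choose (R.hasDiv.exists_divisor (P.ψ b) (P.ψ_ne_zero hb)))

theorem mw17pfOrd_apply {g : ℕ} (R : V27RR K F g) {b : V27pB T} (hb : b ≠ 0)
    (o : Option (Mw17Pt T)) : mw17pfOrd P R b o = (mw17prPl P o).ord (P.ψ b) := by
  unfold mw17pfOrd
  rw [dif_neg hb, ← mw17prDiv_apply P _ o, AddEquiv.apply_symm_apply]
  exact (Classical.choose_spec (R.hasDiv.exists_divisor (P.ψ b) (P.ψ_ne_zero hb))).1 _

/-- at infinity: `ord_{P0} (ψ b) = - v27pOrd b`, in the form `-(ord) ≤ m ↔ V27pLe b m`. -/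
theorem mw17pfOrd_none {g : ℕ} (R : V27RR K F g) {b : V27pB T} (hb : b ≠ 0) :
    mw17pfOrd P R b none = P.P0.ord (P.ψ b) := mw17pfOrd_apply P R hb none

/-- at a finite point: the order of vanishing is `≥ 0`, and `> 0` iff the point is a zero. -/
theorem mw17pfOrd_some_nonneg {g : ℕ} (R : V27RR K F g) {b : V27pB T} (hb : b ≠ 0)
    (q : Mw17Pt T) : 0 ≤ mw17pfOrd P R b (some q) := by
  rw [mw17pfOrd_apply P R hb]
  exact v27sp_ord_nonneg P q b

theorem mw17pfOrd_some_pos_iff {g : ℕ} (R : V27RR K F g) {b : V27pB T} (hb : b ≠ 0)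
    (q : Mw17Pt T) : 0 < mw17pfOrd P R b (some q) ↔ q b = 0 := by
  rw [mw17pfOrd_apply P R hb]
  exact v27sp_ord_pos_iff P q hb

/-- **`Mw17paHyp b (mw17prCl P)` from ONE analytic input** `hG`: `B (div b₁ - div b₂) W` is
bounded for nonzero `b₁, b₂` of pole order `≤ m` without zeros on the support of `W`
(`deg W = 0`, `size W ≤ s`). -/
theorem mw17pf_hyp {g : ℕ} (R : V27RR K F g) (b : Option (Mw17Pt T) → Mw17Pt T → ℝ)
    (hsymm : ∀ p q, b (some p) q = b (some q) p)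
    (hG : ∀ m s : ℕ, ∃ C : ℝ, ∀ b₁ b₂ : V27pB T, b₁ ≠ 0 → b₂ ≠ 0 → V27pLe b₁ m → V27pLe b₂ m →
      ∀ W : Mw17Pt T →₀ ℤ, mw17paDeg W = 0 → mw17paSize W ≤ s →
      (∀ r ∈ W.support, r b₁ ≠ 0 ∧ r b₂ ≠ 0) →
      |mw17paB b (mw17pfOrd P R b₁ - mw17pfOrd P R b₂) W| ≤ C) :
    Mw17paHyp b (mw17prCl P) where
  symm := hsymm
  move := mw17pr_move_hyp P R
  princ := fun s => by
    obtain ⟨C, hC⟩ := hG (2 * g + 2 * s) s
    refine ⟨C, fun A A' W hA hA' hW hcl h1 h2 h3 ho ho' => ?_⟩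
    obtain ⟨b₁, b₂, hb1, hb2, hL1, hL2, hdiv, hoff⟩ :=
      mw17pf_frac P R s hA hA' hcl h1 h2 W ho ho'
    have e : A - A' = mw17pfOrd P R b₁ - mw17pfOrd P R b₂ := by
      ext o
      rw [Finsupp.sub_apply, Finsupp.sub_apply, mw17pfOrd_apply P R hb1,
        mw17pfOrd_apply P R hb2]
      exact hdiv o
    rw [e]
    exact hC b₁ b₂ hb1 hb2 hL1 hL2 W hW h3 hoff

end Fermat.Agent.MW17
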