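import Mathlib
import Fermat.Agent.MW17.Pair.Cl
import Fermat.Agent.MW17.PairMove
import Fermat.Agent.MW17.Pos.Mumford
import Fermat.Agent.V.Coord.Point
import Fermat.Agent.V.Sem.Points
import Fermat.Agent.V.Dict.Basic

/-!
# Program MW (S17), heights half (A), §7: the height on `Pic0` (H7) and the class dictionary

Owner: helper29.  Namespace `Fermat.Agent.MW17`, prefix `mw17pr`.
-/

set_option autoImplicit false
set_option linter.unusedSectionVars false
set_option linter.style.haveILetI false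

noncomputable section

namespace Fermat.Agent.MW17

open AlgebraicCurve Fermat.Agent.V Fermat.Agent.V.RR Fermat.Agent.V.Dict

variable {K F : Type*} [Field K] [Field F] [Algebra K F] {δ : V27pShape} {T : V27pTable K δ}
  [IsDedekindDomain (V27pB T)] (P : V27Presented K F T) [IsAlgClosed K]

theorem mw17prPl_eq_pm : mw17prPl P = mw17pmPl P.P0 (v27spPlace P) := by
  funext o
  cases o <;> rfl

theorem mw17prDiv_eq_pm (A : Option (Mw17Pt T) →₀ ℤ) :
    mw17prDiv P A = mw17pmDiv P.P0 (v27spPlace P) A := by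
  rw [mw17pmDiv_apply, ← mw17prPl_eq_pm]
  unfold mw17prDiv
  rw [Finsupp.domCongr_apply, Finsupp.equivMapDomain_eq_mapDomain]
  rfl

/-- the class map of `Pair/Cl.lean` is helper15's generic one for `pl := v27spPlace P`. -/
theorem mw17prCl_eq_pm :
    mw17prCl P = mw17pmCl (mw17pr_deg_eq_one P) P.P0 (v27spPlace P) := by
  refine AddMonoidHom.ext fun A => ?_
  rw [mw17prCl_apply, mw17pmCl_apply]
  congr 1
  refine Subtype.ext ?_
  show mw17prDiv P A - mw17paDeg A • (Finsupp.single P.P0 1 : Divisor K F) =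
    mw17pmNorm P.P0 (v27spPlace P) A
  rw [mw17pmNorm_apply, mw17prDiv_eq_pm]

/-! ### the class dictionary with coordinate points -/

/-- the place of a coordinate point is the place of its `K`-algebra hom. -/
theorem mw17pr_placeOf (q : V27coP δ → K) (hq : V27coPt T.c q) :
    P.placeOf q hq = mw17prPl P (some (v27cbHom T q hq)) := rfl

theorem mw17prDiv_tup {g : ℕ} (Q : Fin g → Mw17Pt T) :
    mw17prDiv P (mw17muTup Q) =
      v27dcSum (fun i => v27spPlace P (Q i)) - (g : ℤ) • (Finsupp.single P.P0 1 : Divisor K F) := by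
  unfold mw17muTup v27dcSum
  rw [map_sub, map_sum, mw17prDiv_single]
  congr 1
  · refine Finset.sum_congr rfl fun i _ => ?_
    rw [mw17prDiv_single]
    rfl
  · rw [mw17prPl_none, ← Finsupp.smul_single_one]

/-- **the class of a tuple**: `cl (ΣQ_b − g·P0) = [Σ placeOf(Q_b) − g·P0]` (any degree proof). -/
theorem mw17prCl_tup {g : ℕ} (Q : Fin g → Mw17Pt T)
    (h0 : v27dcSum (fun i => v27spPlace P (Q i)) -
      (g : ℤ) • (Finsupp.single P.P0 1 : Divisor K F) ∈ Divisor.degZero (K := K) (F := F)) :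
    mw17prCl P (mw17muTup Q) = Pic0.mk ⟨v27dcSum (fun i => v27spPlace P (Q i)) -
      (g : ℤ) • (Finsupp.single P.P0 1 : Divisor K F), h0⟩ := by
  rw [mw17prCl_of_deg_zero P _ (mw17muTup_deg Q) (by rw [mw17prDiv_tup]; exact h0)]
  congr 1
  exact Subtype.ext (mw17prDiv_tup P Q)

/-- coordinate form (the literal of helper2's `mw17mnCls_eq`). -/
theorem mw17prCl_tup_coord {g : ℕ} (E : Fin g → V27coP δ → K) (hE : ∀ i, V27coPt T.c (E i))
    (h0 : Divisor.degree (v27dcSum (fun i => P.placeOf (E i) (hE i)) -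
      (g : ℤ) • (Finsupp.single P.P0 (1 : ℤ) : Divisor K F)) = 0) :
    Pic0.mk ⟨v27dcSum (fun i => P.placeOf (E i) (hE i)) -
      (g : ℤ) • (Finsupp.single P.P0 (1 : ℤ) : Divisor K F), h0⟩ =
      mw17prCl P (mw17muTup fun i => v27cbHom T (E i) (hE i)) :=
  (mw17prCl_tup P (fun i => v27cbHom T (E i) (hE i)) h0).symm

/-! ### zero multisets are principal -/

omit [IsDedekindDomain (V27pB T)] [IsAlgClosed K] in
/-- the pole order at `P0` is `v27pOrd`. -/
theorem mw17pr_ord_P0 {b : V27pB T} (hb : b ≠ 0) : P.P0.ord (P.ψ b) = -(v27pOrd b : ℤ) := by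
  obtain ⟨j, hj, htop⟩ := v27p_exists_top hb
  exact (P.ord_eq_iff hb (v27pOrd b)).mpr ⟨v27pLe_ord b, j, (b j).natDegree, htop, by
    rw [Polynomial.coeff_natDegree]
    exact Polynomial.leadingCoeff_ne_zero.mpr hj⟩

open Classical in
/-- **the divisor of `ψ b` is `Σ_{q ∈ Z} q − |Z|·P0`** for the zero multiset `Z` of `b`
(`hcount`: multiplicities are the orders at the places of the points). -/
theorem mw17pr_div_zeros {b : V27pB T} (hb : b ≠ 0) (Z : Multiset (Mw17Pt T))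
    (hcard : Z.card = v27pOrd b)
    (hcount : ∀ q : Mw17Pt T, (Z.count q : ℤ) = (v27spPlace P q).ord (P.ψ b)) (v : Place K F) :
    (mw17prDiv P (mw17paIota (mw17muDiv Z)) -
      (Z.card : ℤ) • (Finsupp.single P.P0 1 : Divisor K F)) v = v.ord (P.ψ b) := by
  classical
  obtain ⟨o, rfl⟩ := mw17prPl_surjective P v
  rw [Finsupp.sub_apply, mw17prDiv_apply, Finsupp.smul_apply]
  cases o with
  | none =>
    rw [mw17paIota_none, mw17prPl_none, Finsupp.single_eq_same, mw17pr_ord_P0 P hb, hcard]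
    simp
  | some q =>
    rw [mw17paIota_some, mw17prPl_some, Finsupp.single_eq_of_ne (v27spPlace_ne P q),
      mw17muDiv_apply, hcount q]
    simp

open Classical in
/-- **the class of a zero multiset vanishes** (`= hZcl`, `hclV` of `mw17mu_main`). -/
theorem mw17pr_cl_zeros {b : V27pB T} (hb : b ≠ 0) (Z : Multiset (Mw17Pt T))
    (hcard : Z.card = v27pOrd b)
    (hcount : ∀ q : Mw17Pt T, (Z.count q : ℤ) = (v27spPlace P q).ord (P.ψ b)) :
    mw17prCl P (mw17paIota (mw17muDiv Z)) = 0 := by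
  rw [mw17prCl_apply]
  unfold Pic0.mk
  rw [QuotientAddGroup.eq_zero_iff, AddSubgroup.mem_addSubgroupOf]
  refine Divisor.mem_principal.mpr ⟨P.ψ b, P.ψ_ne_zero hb, fun v => ?_⟩
  show (mw17prDiv P (mw17paIota (mw17muDiv Z)) - mw17paDeg (mw17paIota (mw17muDiv Z)) •
      (Finsupp.single P.P0 1 : Divisor K F)) v = _
  rw [← mw17pr_div_zeros P hb Z hcard hcount v, mw17paDeg_iota, mw17muDiv_deg]

theorem mw17prCl_none : mw17prCl P (Finsupp.single none 1) = 0 := by
  rw [mw17prCl_apply]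
  unfold Pic0.mk
  rw [QuotientAddGroup.eq_zero_iff, AddSubgroup.mem_addSubgroupOf]
  refine Divisor.mem_principal.mpr ⟨1, one_ne_zero, fun v => ?_⟩
  show (mw17prDiv P (Finsupp.single none 1) -
    mw17paDeg (Finsupp.single (none : Option (Mw17Pt T)) (1 : ℤ)) •
      (Finsupp.single P.P0 1 : Divisor K F)) v = _
  rw [mw17prDiv_single, mw17paDeg_single', one_smul, mw17prPl_none, sub_self, Place.ord_one]
  rfl

/-! ### (H7) -/

/-- **(H7)**: the height on `Pic0 K F` with the approximate parallelogram law and the evaluation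
lemma (E), from the symmetry of `b` and (PRINC) for `cl := mw17prCl P`. -/
theorem mw17pr_H7 {g : ℕ} (R : V27RR K F g) (b : Option (Mw17Pt T) → Mw17Pt T → ℝ)
    (hsymm : ∀ P' R', b (some P') R' = b (some R') P')
    (hprinc : ∀ s : ℕ, ∃ C : ℝ, ∀ (A A' : Option (Mw17Pt T) →₀ ℤ) (W : Mw17Pt T →₀ ℤ),
      mw17paDeg A = 0 → mw17paDeg A' = 0 → mw17paDeg W = 0 → mw17prCl P A = mw17prCl P A' →
      mw17paSize A ≤ s → mw17paSize A' ≤ s → mw17paSize W ≤ s →
      Mw17paOff A W → Mw17paOff A' W → |mw17paB b (A - A') W| ≤ C) :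
    ∃ h : Pic0 K F → ℝ, (∃ C : ℝ, ∀ x y : Pic0 K F, |h (x + y) + h (x - y) - 2 * (h x + h y)| ≤ C) ∧
      ∀ s : ℕ, ∃ C : ℝ, ∀ (A : Option (Mw17Pt T) →₀ ℤ) (W : Mw17Pt T →₀ ℤ), mw17paDeg A = 0 →
        mw17paDeg W = 0 → mw17paSize A ≤ s → mw17paSize W ≤ s → Mw17paOff A W →
        mw17prCl P (mw17paIota W) = mw17prCl P A → |mw17paB b A W - h (mw17prCl P A)| ≤ C :=
  mw17pa_main ⟨hsymm, mw17pr_move_hyp P R, hprinc⟩

/-- **(H7) from helper15's raw (PRINC)** (`hG` of `mw17pm_hyp`). -/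
theorem mw17pr_H7' {g : ℕ} (R : V27RR K F g) (b : Option (Mw17Pt T) → Mw17Pt T → ℝ)
    (H : Mw17paHyp b (mw17pmCl (mw17pr_deg_eq_one P) P.P0 (v27spPlace P))) :
    ∃ h : Pic0 K F → ℝ, (∃ C : ℝ, ∀ x y : Pic0 K F, |h (x + y) + h (x - y) - 2 * (h x + h y)| ≤ C) ∧
      ∀ s : ℕ, ∃ C : ℝ, ∀ (A : Option (Mw17Pt T) →₀ ℤ) (W : Mw17Pt T →₀ ℤ), mw17paDeg A = 0 →
        mw17paDeg W = 0 → mw17paSize A ≤ s → mw17paSize W ≤ s → Mw17paOff A W →
        mw17prCl P (mw17paIota W) = mw17prCl P A → |mw17paB b A W - h (mw17prCl P A)| ≤ C := by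
  rw [← mw17prCl_eq_pm] at H
  exact mw17pa_main H

end Fermat.Agent.MW17
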